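import Fermat.Agent.S59.H105.OneStep
import Fermat.Agent.S59.H105.NatLoc

/-!
# Row HARD / S59, cell HECKE, leaf IA-CTRL, piece CHAIN (helper299)

The multi-prime Taylor–Wiles control chain for the localisations `Aut.IsLocPart` of
`X_{Γ₀(M)}(𝒪) = Hom(Γ₀(M), 𝒪)`, obtained by iterating the one-prime step
`S59.H105.one_step` (helper105).

A *step datum* is a triple `(q, α, β)`; a list `L` of step data is *admissible* for
`(N, Tset)` (`ChainHyp299`) if the primes `q` are distinct, prime to `N`, units of `𝒪`, occur in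
`Tset` with a value `c` such that `α + β ≡ c`, `α β ≡ q`, and `α - β`, `1 - α²`, `1 - β²` are
units.

* `lvl299 N L`      : the level `N · ∏ q`;
* `tsetAfter299`    : `Tset` without the primes of `L`;
* `usetAfter299`    : `Uset` with the pairs `(q, α)` added;
* `chain299`        : for `V'` the localisation of level `N` at `(Tset, Uset)` and `V` the
  localisation of level `M = lvl299 N L` at `(tsetAfter299 Tset L, usetAfter299 Uset L)` there is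
  a bijective `𝒪`-linear map `V → V'` (the composite of the transfers `t₂`).

Inputs (hypotheses): `Aut.IdemStatement` (on main: `Aut.H511.idem`) and `H105.CrossStatement`.
-/

set_option autoImplicit false
set_option linter.style.haveILetI false
set_option linter.unusedSectionVars false

namespace Fermat.Agent.S38.H299

open IsLocalRing CongruenceSubgroup
open Fermat.Agent.S59.TW.H653 Fermat.Agent.S59.TW.Aut Fermat.Agent.S59.H105
open scoped MatrixGroups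

section Defs

variable {𝒪 : Type} [CommRing 𝒪]

/-- The level `N · ∏_{(q, α, β) ∈ L} q`, as an iterated product `((N q₁) q₂) ⋯`. -/
def lvl299 (N : ℕ) : List (ℕ × 𝒪 × 𝒪) → ℕ
  | [] => N
  | x :: L => lvl299 (N * x.1) L

/-- `Tset` without the primes of the list. -/
def tsetAfter299 (Tset : Set (ℕ × 𝒪)) (L : List (ℕ × 𝒪 × 𝒪)) : Set (ℕ × 𝒪) :=
  {x | x ∈ Tset ∧ ∀ y ∈ L, x.1 ≠ y.1}

/-- `Uset` with the pairs `(q, α)` of the list. -/
def usetAfter299 (Uset : Set (ℕ × 𝒪)) (L : List (ℕ × 𝒪 × 𝒪)) : Set (ℕ × 𝒪) :=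
  Uset ∪ {x | ∃ y ∈ L, x = (y.1, y.2.1)}

theorem lvl299_nil (N : ℕ) : lvl299 N ([] : List (ℕ × 𝒪 × 𝒪)) = N := rfl

theorem lvl299_cons (N : ℕ) (x : ℕ × 𝒪 × 𝒪) (L : List (ℕ × 𝒪 × 𝒪)) :
    lvl299 N (x :: L) = lvl299 (N * x.1) L := rfl

theorem lvl299_eq_prod (N : ℕ) (L : List (ℕ × 𝒪 × 𝒪)) :
    lvl299 N L = N * (L.map Prod.fst).prod := by
  induction L generalizing N with
  | nil => simp [lvl299]
  | cons x L ih =>
    rw [lvl299_cons, ih, List.map_cons, List.prod_cons, mul_assoc]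

theorem tsetAfter299_nil (Tset : Set (ℕ × 𝒪)) : tsetAfter299 Tset [] = Tset := by
  ext x
  simp [tsetAfter299]

theorem usetAfter299_nil (Uset : Set (ℕ × 𝒪)) : usetAfter299 Uset [] = Uset := by
  ext x
  simp [usetAfter299]

theorem tsetAfter299_cons (Tset : Set (ℕ × 𝒪)) (y : ℕ × 𝒪 × 𝒪) (L : List (ℕ × 𝒪 × 𝒪)) :
    tsetAfter299 Tset (y :: L) = tsetAfter299 {x | x ∈ Tset ∧ x.1 ≠ y.1} L := by
  ext x
  simp only [tsetAfter299, Set.mem_ofPred_eq, List.mem_cons, forall_eq_or_imp]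
  tauto

theorem usetAfter299_cons (Uset : Set (ℕ × 𝒪)) (y : ℕ × 𝒪 × 𝒪) (L : List (ℕ × 𝒪 × 𝒪)) :
    usetAfter299 Uset (y :: L) = usetAfter299 (Uset ∪ {(y.1, y.2.1)}) L := by
  ext x
  simp only [usetAfter299, Set.mem_union, Set.mem_ofPred_eq, List.mem_cons,
    Set.mem_singleton_iff, exists_eq_or_imp]
  tauto

end Defs

section Chain

variable {𝒪 : Type} [CommRing 𝒪] [IsDomain 𝒪] [IsDiscreteValuationRing 𝒪]
  [IsAdicComplete (maximalIdeal 𝒪) 𝒪] [Finite (ResidueField 𝒪)]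

/-- Admissibility of one step datum `(q, α, β)` for `(N, Tset)`. -/
def StepHyp299 (N : ℕ) (Tset : Set (ℕ × 𝒪)) (y : ℕ × 𝒪 × 𝒪) : Prop :=
  y.1.Prime ∧ ¬ y.1 ∣ N ∧ IsUnit ((y.1 : ℕ) : 𝒪) ∧
    IsUnit (y.2.1 - y.2.2) ∧ IsUnit (1 - y.2.1 ^ 2) ∧ IsUnit (1 - y.2.2 ^ 2) ∧
    y.2.1 * y.2.2 - ((y.1 : ℕ) : 𝒪) ∈ maximalIdeal 𝒪 ∧
    ∃ c : 𝒪, (y.1, c) ∈ Tset ∧ (∀ c', (y.1, c') ∈ Tset → c' - c ∈ maximalIdeal 𝒪) ∧
      y.2.1 + y.2.2 - c ∈ maximalIdeal 𝒪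

/-- Admissibility of a list of step data: every datum is admissible and the primes are
pairwise distinct. -/
def ChainHyp299 (N : ℕ) (Tset : Set (ℕ × 𝒪)) (L : List (ℕ × 𝒪 × 𝒪)) : Prop :=
  (∀ y ∈ L, StepHyp299 N Tset y) ∧ (L.map Prod.fst).Nodup

theorem ChainHyp299.tail {N : ℕ} {Tset : Set (ℕ × 𝒪)} {y : ℕ × 𝒪 × 𝒪}
    {L : List (ℕ × 𝒪 × 𝒪)} (h : ChainHyp299 N Tset (y :: L)) :
    ChainHyp299 (N * y.1) {x | x ∈ Tset ∧ x.1 ≠ y.1} L := by
  obtain ⟨h1, h2⟩ := h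
  rw [List.map_cons, List.nodup_cons] at h2
  have hy := h1 y List.mem_cons_self
  refine ⟨fun z hz => ?_, h2.2⟩
  obtain ⟨z1, z2, z3, z4, z5, z6, z7, c, hc1, hc2, hc3⟩ := h1 z (List.mem_cons_of_mem y hz)
  have hne : z.1 ≠ y.1 := by
    intro e
    exact h2.1 (e ▸ List.mem_map_of_mem hz)
  refine ⟨z1, ?_, z3, z4, z5, z6, z7, c, ⟨hc1, hne⟩, fun c' hc' => hc2 c' hc'.1, hc3⟩
  intro hdvd
  rcases (Nat.Prime.dvd_mul z1).mp hdvd with h | h
  · exact z2 h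
  · exact hne ((Nat.prime_dvd_prime_iff_eq z1 hy.1).mp h)

/-- Transport of `IsLocPart` along equalities of the sets of generators. -/
theorem isLocPart_congr299 {M : ℕ} {K : Subgroup SL(2, ℤ)} (hK : IsMid M K)
    {Tset Tset' Uset Uset' : Set (ℕ × 𝒪)} (hT : Tset = Tset') (hU : Uset = Uset')
    {V : Submodule 𝒪 (Additive K →+ 𝒪)} (hV : IsLocPart hK Tset Uset V) :
    IsLocPart hK Tset' Uset' V := by
  subst hT
  subst hU
  exact hV

/-- **The Taylor–Wiles control chain.** -/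
theorem chain299 (idem : IdemStatement) (hcross : CrossStatement) :
    ∀ (L : List (ℕ × 𝒪 × 𝒪)) (N : ℕ) (_hN : N ≠ 0) (Tset Uset : Set (ℕ × 𝒪))
      (_hT : ∀ x ∈ Tset, x.1.Prime ∧ ¬ x.1 ∣ N) (_hU : ∀ x ∈ Uset, x.1.Prime ∧ x.1 ∣ N)
      (_hL : ChainHyp299 N Tset L)
      (V' : Submodule 𝒪 (Additive (Gamma0 N) →+ 𝒪))
      (_hV' : IsLocPart (isMid_Gamma0 N) Tset Uset V')
      (M : ℕ) (_hM : M = lvl299 N L)
      (V : Submodule 𝒪 (Additive (Gamma0 M) →+ 𝒪))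
      (_hV : IsLocPart (isMid_Gamma0 M) (tsetAfter299 Tset L) (usetAfter299 Uset L) V),
      ∃ f : V →ₗ[𝒪] V', Function.Bijective f := by
  intro L
  induction L with
  | nil =>
    intro N hN Tset Uset hT hU _ V' hV' M hM V hV
    rw [lvl299_nil] at hM
    subst hM
    have hV2 : IsLocPart (isMid_Gamma0 M) Tset Uset V :=
      isLocPart_congr299 _ (tsetAfter299_nil Tset) (usetAfter299_nil Uset) hV
    have hEq : V = V' := isLocPart_unique hN _ hV2 hV' hT hU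
    subst hEq
    exact ⟨LinearMap.id, Function.bijective_id⟩
  | cons y L ih =>
    intro N hN Tset Uset hT hU hL V' hV' M hM V hV
    obtain ⟨y1, y2, y3, y4, y5, y6, y7, c, hc1, hc2, hc3⟩ := hL.1 y List.mem_cons_self
    haveI : Fact y.1.Prime := ⟨y1⟩
    have hNq : N * y.1 ≠ 0 := Nat.mul_ne_zero hN y1.ne_zero
    have hT1 : ∀ x ∈ {x : ℕ × 𝒪 | x ∈ Tset ∧ x.1 ≠ y.1}, x.1.Prime ∧ ¬ x.1 ∣ N * y.1 :=
      fun x hx => ⟨(hT x hx.1).1, not_dvd_mul_of_prime (hT x hx.1).1 y1 (hT x hx.1).2 hx.2⟩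
    have hU1 : ∀ x ∈ Uset ∪ {(y.1, y.2.1)}, x.1.Prime ∧ x.1 ∣ N * y.1 := by
      rintro x (hx | hx)
      · exact ⟨(hU x hx).1, Dvd.dvd.mul_right (hU x hx).2 y.1⟩
      · rw [Set.mem_singleton_iff] at hx
        subst hx
        exact ⟨y1, dvd_mul_self_left N y.1⟩
    -- the intermediate localisation of level `N q`
    obtain ⟨V₁, hV₁⟩ := idem 𝒪 (N * y.1) hNq (Gamma0 (N * y.1)) (isMid_Gamma0 (N * y.1))
      {x | x ∈ Tset ∧ x.1 ≠ y.1} (Uset ∪ {(y.1, y.2.1)}) hT1 hU1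
    obtain ⟨s1, s2, s3⟩ := one_step idem hcross hN y2 y3 hT hU hc1 hc2 hc3 y7 y4 y5 y6 hV' hV₁
    -- the rest of the chain
    rw [lvl299_cons] at hM
    obtain ⟨f, hf⟩ := ih (N * y.1) hNq {x | x ∈ Tset ∧ x.1 ≠ y.1} (Uset ∪ {(y.1, y.2.1)})
      hT1 hU1 hL.tail V₁ hV₁ M hM V
      (isLocPart_congr299 _ (tsetAfter299_cons Tset y L) (usetAfter299_cons Uset y L) hV)
    -- `t₂ : V₁ → V'`
    let g : V₁ →ₗ[𝒪] V' :=
      LinearMap.codRestrict V' ((t₂L 𝒪 𝒪 N y.1).comp V₁.subtype) (fun v => s1 v v.2)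
    have hg : Function.Bijective g := by
      constructor
      · intro v w hvw
        have h1 : t₂L 𝒪 𝒪 N y.1 (v : Additive (Gamma0 (N * y.1)) →+ 𝒪) =
            t₂L 𝒪 𝒪 N y.1 (w : Additive (Gamma0 (N * y.1)) →+ 𝒪) := congrArg Subtype.val hvw
        have h2 : t₂L 𝒪 𝒪 N y.1 ((v : Additive (Gamma0 (N * y.1)) →+ 𝒪) -
            (w : Additive (Gamma0 (N * y.1)) →+ 𝒪)) = 0 := by
          rw [map_sub, h1, sub_self]
        have h3 := s2 _ (V₁.sub_mem v.2 w.2) h2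
        exact Subtype.ext (sub_eq_zero.mp h3)
      · rintro ⟨x, hx⟩
        obtain ⟨v, hv, e⟩ := s3 x hx
        exact ⟨⟨v, hv⟩, Subtype.ext e⟩
    exact ⟨g.comp f, hg.comp hf⟩

end Chain

end Fermat.Agent.S38.H299
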