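import Fermat.Agent.S38.H299.CtrlChain
import Fermat.Agent.S38.IA.Hecke.Spec3

/-!
# Row HARD, cell HECKE, leaf IA-CTRL, piece CHAIN-IA (helper299)

The Taylor–Wiles control chain `chain299` in the vocabulary of `S38/IA/Hecke/Spec3.lean`:
under the hypotheses of `IACtrlStatement`, every localisation `W` of
`X_{Γ₀(M)}(𝒪)`, `M = MIA p Smin pv qv = N_min · ∏ pv · ∏ qv`, at `(TsetOf PQ, UsetOf qv α)`
is isomorphic (as an `𝒪`-module) to the localisation `V₀` of `X_{Γ₀(L)}(𝒪)`,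
`L = ribetLevel p Smin Piv`, at `θ₀` (`chainIA299`).

Pieces:
* `mia_eq_lvl299`       : `MIA p Smin pv qv = lvl299 (ribetLevel p Smin Piv) (stepList299 qv α β)`;
* `tsetAfter_eq299`     : `tsetAfter299 (TsetOfθ θ₀) (stepList299 qv α β) = TsetOf PQ`
  (from `PQ.θ = θ₀ ∘ oldRestrict`);
* `usetAfter_eq299`     : `usetAfter299 ∅ (stepList299 qv α β) = UsetOf qv α`;
* `exists_beta299`      : lifts `β_j` of the second Frobenius eigenvalues;
* `chainHyp299_of`      : the admissibility `ChainHyp299` from `IsTWSet`, `IsFrobLift`,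
  `ResFrobCond` and `(p : 𝒪) ∈ 𝔪`.
-/

set_option autoImplicit false
set_option linter.style.haveILetI false
set_option linter.unusedSectionVars false

open Polynomial IsLocalRing CongruenceSubgroup
open scoped MatrixGroups

namespace Fermat.Agent.S38.H299

open Fermat.Agent.S59.Arch Fermat.Agent.S59.TW.H959 Fermat.Agent.S59.TW Fermat.Agent.S59.H765
open Fermat.Agent.S59.TW.H653 Fermat.Agent.S59.TW.Aut Fermat.Agent.S59.H105
open Fermat.Agent.S38.IA Fermat.Agent.S38.IA.Hecke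
open CuspForm

/-! ## Polynomial bookkeeping -/

theorem coeffs_of_split299 {k : Type} [CommRing k] {a b t d : k}
    (h : (X - C a) * (X - C b) = X ^ 2 - C t * X + C d) : a + b = t ∧ a * b = d := by
  have e : (X - C a) * (X - C b) = X ^ 2 - C (a + b) * X + C (a * b) := by
    rw [C_add, C_mul]
    ring
  rw [e] at h
  have h0 := congrArg (fun f : k[X] => f.coeff 0) h
  have h1 := congrArg (fun f : k[X] => f.coeff 1) h
  simp only [coeff_add, coeff_sub, coeff_C_mul, coeff_X_pow, coeff_X, coeff_C] at h0 h1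
  norm_num at h0 h1
  exact ⟨by linear_combination (-1 : k) * h1, h0⟩

/-! ## The list of step data -/

section List

variable {𝒪 : Type} [CommRing 𝒪] {r : ℕ}

/-- The list of the step data `(q_j, α_j, β_j)`. -/
def stepList299 (qv : Fin r → ℕ) (α β : Fin r → 𝒪) : List (ℕ × 𝒪 × 𝒪) :=
  List.ofFn fun j => (qv j, α j, β j)

theorem mem_stepList299 {qv : Fin r → ℕ} {α β : Fin r → 𝒪} {y : ℕ × 𝒪 × 𝒪} :
    y ∈ stepList299 qv α β ↔ ∃ j, y = (qv j, α j, β j) := by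
  unfold stepList299
  rw [List.mem_ofFn]
  constructor
  · rintro ⟨j, hj⟩
    exact ⟨j, hj.symm⟩
  · rintro ⟨j, hj⟩
    exact ⟨j, hj.symm⟩

theorem map_fst_stepList299 (qv : Fin r → ℕ) (α β : Fin r → 𝒪) :
    (stepList299 qv α β).map Prod.fst = List.ofFn qv := by
  unfold stepList299
  rw [List.map_ofFn]
  rfl

theorem lvl299_stepList (N : ℕ) (qv : Fin r → ℕ) (α β : Fin r → 𝒪) :
    lvl299 N (stepList299 qv α β) = N * ∏ j, qv j := by
  rw [lvl299_eq_prod, map_fst_stepList299, List.prod_ofFn]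

theorem usetAfter_eq299 (qv : Fin r → ℕ) (α β : Fin r → 𝒪) :
    usetAfter299 (∅ : Set (ℕ × 𝒪)) (stepList299 qv α β) = UsetOf qv α := by
  ext x
  simp only [usetAfter299, UsetOf, Set.empty_union, Set.mem_ofPred_eq]
  constructor
  · rintro ⟨y, hy, rfl⟩
    obtain ⟨j, rfl⟩ := mem_stepList299.mp hy
    exact ⟨j, rfl⟩
  · rintro ⟨j, rfl⟩
    exact ⟨(qv j, α j, β j), mem_stepList299.mpr ⟨j, rfl⟩, rfl⟩

end List

/-! ## The levels -/

section Level

variable (p : ℕ) (Smin : Finset ℕ)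

theorem wilesLevel_flat_self299 : wilesLevel p .flat Smin Smin = ∏ q ∈ Smin.erase p, q := by
  unfold wilesLevel
  rw [Finset.sdiff_self, Finset.prod_empty, mul_one, mul_one]

theorem ribetLevel_eq299 {Piv : Finset ℕ} {k : ℕ} (pv : Fin k → ℕ)
    (hpv : Function.Injective pv) (hpvPiv : Finset.univ.image pv = Piv) :
    ribetLevel p Smin Piv = wilesLevel p .flat Smin Smin * ∏ i, pv i := by
  unfold ribetLevel
  rw [wilesLevel_flat_self299, ← hpvPiv, Finset.prod_image (fun a _ b _ h => hpv h)]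

theorem mia_eq299 {Piv : Finset ℕ} {k r : ℕ} (pv : Fin k → ℕ) (qv : Fin r → ℕ)
    (hpv : Function.Injective pv) (hpvPiv : Finset.univ.image pv = Piv) :
    MIA p Smin pv qv = ribetLevel p Smin Piv * ∏ j, qv j := by
  rw [ribetLevel_eq299 p Smin pv hpv hpvPiv]
  show wilesLevel p .flat Smin Smin * ∏ s : Fin k ⊕ Fin r, Sum.elim pv qv s = _
  rw [Fintype.prod_sum_type, mul_assoc]
  rfl

theorem mia_eq_lvl299 {𝒪 : Type} [CommRing 𝒪] {Piv : Finset ℕ} {k r : ℕ} (pv : Fin k → ℕ)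
    (qv : Fin r → ℕ) (hpv : Function.Injective pv) (hpvPiv : Finset.univ.image pv = Piv)
    (α β : Fin r → 𝒪) :
    MIA p Smin pv qv = lvl299 (ribetLevel p Smin Piv) (stepList299 qv α β) := by
  rw [lvl299_stepList, mia_eq299 p Smin pv qv hpv hpvPiv]

/-- A prime dividing `ribetLevel` lies in `Smin ∪ Piv`. -/
theorem mem_of_dvd_ribetLevel299 {Piv : Finset ℕ} (hSmin : ∀ q ∈ Smin, q.Prime)
    (hPiv : ∀ q ∈ Piv, q.Prime) {ℓ : ℕ} (hℓ : ℓ.Prime) (h : ℓ ∣ ribetLevel p Smin Piv) :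
    ℓ ∈ Smin ∪ Piv := by
  unfold ribetLevel at h
  rcases (Nat.Prime.dvd_mul hℓ).mp h with h | h
  · obtain ⟨q, hq, hdvd⟩ := (Prime.dvd_finsetProd_iff hℓ.prime _).mp h
    have hqS : q ∈ Smin := Finset.mem_of_mem_erase hq
    have : ℓ = q := (Nat.prime_dvd_prime_iff_eq hℓ (hSmin q hqS)).mp hdvd
    exact Finset.mem_union_left _ (this ▸ hqS)
  · obtain ⟨q, hq, hdvd⟩ := (Prime.dvd_finsetProd_iff hℓ.prime _).mp h
    have : ℓ = q := (Nat.prime_dvd_prime_iff_eq hℓ (hPiv q hq)).mp hdvd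
    exact Finset.mem_union_right _ (this ▸ hq)

end Level

/-! ## The sets of generators -/

section Sets

variable {p : ℕ}
  {𝒪 : Type} [CommRing 𝒪] [IsDomain 𝒪] [IsDiscreteValuationRing 𝒪]
  [IsAdicComplete (maximalIdeal 𝒪) 𝒪]
  {ρbar : ResidualGaloisRep (ResidueField 𝒪)} {Smin Piv : Finset ℕ} {r : ℕ} {qv : Fin r → ℕ}
  [NeZero (ribetLevel p Smin Piv)]
  [NeZero (wilesLevel p .flat Smin (Smin ∪ Piv ∪ Finset.univ.image qv))]

theorem tsetAfter_eq299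
    (θ₀ : CuspForm.heckeAlgebra (ribetLevel p Smin Piv) 2 (↑(Smin ∪ Piv) : Set ℕ) →+*
      ResidueField 𝒪)
    (hp : LevelPair (ribetLevel p Smin Piv)
      (wilesLevel p .flat Smin (Smin ∪ Piv ∪ Finset.univ.image qv))
      (↑(Smin ∪ Piv) : Set ℕ) (↑(Smin ∪ Piv ∪ Finset.univ.image qv) : Set ℕ))
    (PQ : HeckePkg p 𝒪 ρbar .flat Smin (Smin ∪ Piv ∪ Finset.univ.image qv))
    (hθ : PQ.θ = θ₀.comp (oldRestrict hp)) (α β : Fin r → 𝒪) :
    tsetAfter299 (TsetOfθ θ₀) (stepList299 qv α β) = TsetOf PQ := by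
  ext x
  constructor
  · rintro ⟨⟨hℓ, hℓN, hℓS, hres⟩, hne⟩
    have hℓS' : x.1 ∉ (↑(Smin ∪ Piv ∪ Finset.univ.image qv) : Set ℕ) := by
      intro hmem
      rw [Finset.mem_coe, Finset.mem_union] at hmem
      rcases hmem with hmem | hmem
      · exact hℓS (Finset.mem_coe.mpr hmem)
      · obtain ⟨j, -, hj⟩ := Finset.mem_image.mp hmem
        exact hne (qv j, α j, β j) (mem_stepList299.mpr ⟨j, rfl⟩) hj.symm
    have hℓN' : ¬ x.1 ∣ wilesLevel p .flat Smin (Smin ∪ Piv ∪ Finset.univ.image qv) :=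
      fun hdvd => hℓN (hp.hU x.1 hℓ hdvd hℓS')
    refine ⟨hℓ, hℓN', hℓS', ?_⟩
    rw [hres, hθ, RingHom.comp_apply, oldRestrict_T hp hℓ hℓN' hℓS' hℓN hℓS]
  · rintro ⟨hℓ, hℓN', hℓS', hres⟩
    have hℓN : ¬ x.1 ∣ ribetLevel p Smin Piv := fun hdvd => hℓN' (hdvd.trans hp.dvd)
    have hℓS : x.1 ∉ (↑(Smin ∪ Piv) : Set ℕ) := fun hmem => hℓS' (hp.sub hmem)
    refine ⟨⟨hℓ, hℓN, hℓS, ?_⟩, ?_⟩
    · rw [hres, hθ, RingHom.comp_apply, oldRestrict_T hp hℓ hℓN' hℓS' hℓN hℓS]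
    · intro y hy e
      obtain ⟨j, rfl⟩ := mem_stepList299.mp hy
      apply hℓS'
      rw [Finset.mem_coe, Finset.mem_union]
      right
      exact Finset.mem_image.mpr ⟨j, Finset.mem_univ j, e.symm⟩

end Sets

/-! ## The admissibility of the Taylor–Wiles primes -/

section Adm

variable {p : ℕ} [Fact p.Prime]
  {𝒪 : Type} [CommRing 𝒪] [IsDomain 𝒪] [IsDiscreteValuationRing 𝒪]
  [IsAdicComplete (maximalIdeal 𝒪) 𝒪] [Finite (ResidueField 𝒪)]
  {ρbar : ResidualGaloisRep (ResidueField 𝒪)} {Smin Piv : Finset ℕ} {r : ℕ} {qv : Fin r → ℕ}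

/-- Lifts of the second eigenvalues of the Frobenius elements at the Taylor–Wiles primes. -/
theorem exists_beta299 {α : Fin r → 𝒪} (hα : IsFrobLift ρbar qv α) :
    ∃ β : Fin r → 𝒪, ∀ j, ∃ (P : ValuationSubring Qb) (φ : GQ),
      P.LiesOverPrime (qv j) ∧ P.IsFrobeniusAt φ (qv j) ∧
      residue 𝒪 (α j) ≠ residue 𝒪 (β j) ∧
      LinearMap.charpoly (ρbar.ρ φ) =
        (X - C (residue 𝒪 (α j))) * (X - C (residue 𝒪 (β j))) := by
  choose P φ b h1 h2 h3 h4 using hα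
  have hs : ∀ j, ∃ β : 𝒪, residue 𝒪 β = b j := fun j => residue_surjective (b j)
  choose β hβ using hs
  refine ⟨β, fun j => ⟨P j, φ j, h1 j, h2 j, ?_, ?_⟩⟩
  · rw [hβ]
    exact h3 j
  · rw [hβ]
    exact h4 j

theorem residue_natCast_eq_one299 (hp𝒪 : (p : 𝒪) ∈ maximalIdeal 𝒪) {q n : ℕ} (hq : 0 < q)
    (hdvd : p ^ (n + 1) ∣ q - 1) : residue 𝒪 ((q : ℕ) : 𝒪) = 1 := by
  have hp1 : p ∣ q - 1 := (dvd_pow_self p (Nat.succ_ne_zero n)).trans hdvd
  obtain ⟨m, hm⟩ := hp1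
  have hq' : q = p * m + 1 := by omega
  rw [hq']
  push_cast
  rw [map_add, map_mul, map_one, (residue_eq_zero_iff _).mpr hp𝒪, zero_mul, zero_add]

theorem isUnit_of_residue_ne_zero299 {x : 𝒪} (h : residue 𝒪 x ≠ 0) : IsUnit x := by
  by_contra hx
  exact h ((residue_eq_zero_iff x).mpr ((mem_maximalIdeal x).mpr hx))

theorem chainHyp299_of [NeZero (ribetLevel p Smin Piv)]
    (hp𝒪 : (p : 𝒪) ∈ maximalIdeal 𝒪) (hSmin : ∀ q ∈ Smin, q.Prime)
    (hPiv : ∀ q ∈ Piv, q.Prime)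
    (θ₀ : CuspForm.heckeAlgebra (ribetLevel p Smin Piv) 2 (↑(Smin ∪ Piv) : Set ℕ) →+*
      ResidueField 𝒪)
    (hθ₀ : Fermat.Agent.S59.G4.ResFrobCond ρbar θ₀)
    {n : ℕ} (hq : IsTWSet p ρbar (Smin ∪ Piv) n qv)
    {α β : Fin r → 𝒪}
    (hβ : ∀ j, ∃ (P : ValuationSubring Qb) (φ : GQ),
      P.LiesOverPrime (qv j) ∧ P.IsFrobeniusAt φ (qv j) ∧
      residue 𝒪 (α j) ≠ residue 𝒪 (β j) ∧
      LinearMap.charpoly (ρbar.ρ φ) =
        (X - C (residue 𝒪 (α j))) * (X - C (residue 𝒪 (β j)))) :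
    ChainHyp299 (ribetLevel p Smin Piv) (TsetOfθ θ₀) (stepList299 qv α β) := by
  obtain ⟨hinj, hq2, -⟩ := hq
  refine ⟨?_, ?_⟩
  · intro y hy
    obtain ⟨j, rfl⟩ := mem_stepList299.mp hy
    obtain ⟨hqp, hqS, hqdvd⟩ := hq2 j
    obtain ⟨P, φ, hP, hφ, hne, hchar⟩ := hβ j
    have hqN : ¬ qv j ∣ ribetLevel p Smin Piv :=
      fun hdvd => hqS (mem_of_dvd_ribetLevel299 p Smin hSmin hPiv hqp hdvd)
    have hqS' : qv j ∉ (↑(Smin ∪ Piv) : Set ℕ) := fun h => hqS (Finset.mem_coe.mp h)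
    have hone : residue 𝒪 ((qv j : ℕ) : 𝒪) = 1 :=
      residue_natCast_eq_one299 hp𝒪 hqp.pos hqdvd
    -- the characteristic polynomial of Frobenius
    have hθ := hθ₀ (qv j) hqp hqN hqS' P hP φ hφ
    rw [hchar] at hθ
    obtain ⟨hsum, hprod⟩ := coeffs_of_split299 hθ
    have hprod1 : residue 𝒪 (α j) * residue 𝒪 (β j) = 1 := by
      rw [hprod, ← hone]
      rfl
    obtain ⟨c, hc⟩ := residue_surjective (θ₀ (CuspForm.heckeAlgebra.T hqp hqN hqS'))
    refine ⟨hqp, hqN, ?_, ?_, ?_, ?_, ?_, c, ⟨hqp, hqN, hqS', hc⟩, ?_, ?_⟩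
    · apply isUnit_of_residue_ne_zero299
      rw [hone]
      exact one_ne_zero
    · apply isUnit_of_residue_ne_zero299
      rw [map_sub]
      exact sub_ne_zero.mpr hne
    · apply isUnit_of_residue_ne_zero299
      rw [map_sub, map_one, map_pow]
      intro h0
      apply hne
      have h1 : residue 𝒪 (α j) ^ 2 = residue 𝒪 (α j) * residue 𝒪 (β j) := by
        rw [hprod1]
        exact (sub_eq_zero.mp h0).symm
      have hα0 : residue 𝒪 (α j) ≠ 0 := by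
        intro h
        rw [h, zero_mul] at hprod1
        exact zero_ne_one hprod1
      rw [pow_two] at h1
      exact mul_left_cancel₀ hα0 h1
    · apply isUnit_of_residue_ne_zero299
      rw [map_sub, map_one, map_pow]
      intro h0
      apply hne
      have h1 : residue 𝒪 (β j) ^ 2 = residue 𝒪 (α j) * residue 𝒪 (β j) := by
        rw [hprod1]
        exact (sub_eq_zero.mp h0).symm
      have hβ0 : residue 𝒪 (β j) ≠ 0 := by
        intro h
        rw [h, mul_zero] at hprod1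
        exact zero_ne_one hprod1
      rw [pow_two] at h1
      exact (mul_right_cancel₀ hβ0 h1).symm
    · rw [← residue_eq_zero_iff, map_sub, map_mul, hprod1, hone, sub_self]
    · rintro c' ⟨h1, h2, h3, h4⟩
      rw [← residue_eq_zero_iff, map_sub, h4, hc, sub_self]
    · rw [← residue_eq_zero_iff, map_sub, map_add, hsum, hc, sub_self]
  · rw [map_fst_stepList299]
    exact (List.nodup_ofFn (f := qv)).mpr hinj

end Adm

/-! ## The chain in the vocabulary of `Spec3` -/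

section Main

variable {p : ℕ} [Fact p.Prime]
  {𝒪 : Type} [CommRing 𝒪] [IsDomain 𝒪] [IsDiscreteValuationRing 𝒪]
  [IsAdicComplete (maximalIdeal 𝒪) 𝒪] [Finite (ResidueField 𝒪)]
  {ρbar : ResidualGaloisRep (ResidueField 𝒪)} {Smin Piv : Finset ℕ}
  {k r : ℕ} {pv : Fin k → ℕ} {qv : Fin r → ℕ}
  [NeZero (ribetLevel p Smin Piv)]
  [NeZero (wilesLevel p .flat Smin (Smin ∪ Piv ∪ Finset.univ.image qv))]

/-- **CHAIN-IA.**  The localisation of `X_{Γ₀(M)}(𝒪)`, `M = N_min ∏ pv ∏ qv`, at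
`(TsetOf PQ, UsetOf qv α)` is isomorphic to the localisation `V₀` of `X_{Γ₀(L)}(𝒪)`,
`L = ribetLevel`, at `θ₀`. -/
theorem chainIA299 (idem : IdemStatement) (hcross : CrossStatement)
    (hp𝒪 : (p : 𝒪) ∈ maximalIdeal 𝒪) (hSmin : ∀ q ∈ Smin, q.Prime)
    (hPiv : ∀ q ∈ Piv, q.Prime)
    (θ₀ : CuspForm.heckeAlgebra (ribetLevel p Smin Piv) 2 (↑(Smin ∪ Piv) : Set ℕ) →+*
      ResidueField 𝒪)
    (hθ₀ : Fermat.Agent.S59.G4.ResFrobCond ρbar θ₀)
    (hpv : Function.Injective pv) (hpvPiv : Finset.univ.image pv = Piv)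
    {n : ℕ} (hq : IsTWSet p ρbar (Smin ∪ Piv) n qv)
    (hp : LevelPair (ribetLevel p Smin Piv)
      (wilesLevel p .flat Smin (Smin ∪ Piv ∪ Finset.univ.image qv))
      (↑(Smin ∪ Piv) : Set ℕ) (↑(Smin ∪ Piv ∪ Finset.univ.image qv) : Set ℕ))
    (PQ : HeckePkg p 𝒪 ρbar .flat Smin (Smin ∪ Piv ∪ Finset.univ.image qv))
    (hθ : PQ.θ = θ₀.comp (oldRestrict hp))
    (α : Fin r → 𝒪) (hα : IsFrobLift ρbar qv α)
    (V₀ : Submodule 𝒪 (Additive (Gamma0 (ribetLevel p Smin Piv)) →+ 𝒪))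
    (hV₀ : IsIAMinPart θ₀ V₀)
    (W : Submodule 𝒪 (Additive (Gamma0 (MIA p Smin pv qv)) →+ 𝒪))
    (hW : IsLocPart (isMid_Gamma0 (MIA p Smin pv qv)) (TsetOf PQ) (UsetOf qv α) W) :
    ∃ f : W →ₗ[𝒪] V₀, Function.Bijective f := by
  obtain ⟨β, hβ⟩ := exists_beta299 hα
  have hL := chainHyp299_of hp𝒪 hSmin hPiv θ₀ hθ₀ hq hβ
  refine chain299 idem hcross (stepList299 qv α β) (ribetLevel p Smin Piv)
    (NeZero.ne _) (TsetOfθ θ₀) ∅ ?_ ?_ hL V₀ hV₀ (MIA p Smin pv qv)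
    (mia_eq_lvl299 p Smin pv qv hpv hpvPiv α β) W ?_
  · rintro x ⟨h1, h2, -, -⟩
    exact ⟨h1, h2⟩
  · intro x hx
    exact absurd hx (Set.notMem_empty x)
  · exact isLocPart_congr299 _ (tsetAfter_eq299 θ₀ hp PQ hθ α β).symm
      (usetAfter_eq299 qv α β).symm hW

end Main

end Fermat.Agent.S38.H299
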