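import Fermat.Agent.S38.H299.CtrlChainIA
import Fermat.Agent.S38.H483.IACtrl
import Fermat.Agent.S38.H903.Cross
import Fermat.Agent.S38.H916.IAFree
import Fermat.Agent.S59.TW.Aut.H511.Idem

/-!
# Row HARD, cell HECKE, layer 3: leaf IA-CTRL, UNCONDITIONAL (helper299)

* `iaChain299 : H483.IAChainStatement` — the Taylor–Wiles control chain over the base level
  `ribetLevel` (VERBATIM the open piece of helper483's glue), from `chainIA299`
  (`CtrlChainIA.lean`), `Aut.H511.idem` (main) and `H903.cross903` (`H105.CrossStatement`);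
* `iaCtrl299 : IA.Hecke.IACtrlStatement` — VERBATIM the leaf IA-CTRL of `Hecke/Spec3.lean`:
  `H483.iaCtrl_of_chain483` (COR + NAT, helper483) applied to `Aut.H511.idem`,
  `H916.iaFree_h916` (IA-FREE, helper916) and `iaChain299`.
-/

set_option autoImplicit false

namespace Fermat.Agent.S38.H299

open Fermat.Agent.S38.IA.Hecke

/-- **CHAIN** (the open piece of `H483.iaCtrl_of_chain483`), VERBATIM. -/
theorem iaChain299 : Fermat.Agent.S38.H483.IAChainStatement := by
  intro p _ _hp5 𝒪 _ _ _ _ _ _ ρbar Smin h _hflat Piv hPiv _ θ₀ hθ₀ k pv hpv hpvPiv n r qv hq _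
    hp PQ hθ α hα V₀ W hV₀ hW
  exact chainIA299 Fermat.Agent.S59.TW.Aut.H511.idem Fermat.Agent.S38.H903.cross903 h.hp𝒪
    h.hSmin (fun q hqP => (hPiv q hqP).1) θ₀ hθ₀ hpv hpvPiv hq hp PQ hθ α hα V₀ hV₀ W hW

/-- **IA-CTRL**, VERBATIM (`S38/IA/Hecke/Spec3.lean`), unconditional. -/
theorem iaCtrl299 : IACtrlStatement :=
  Fermat.Agent.S38.H483.iaCtrl_of_chain483 Fermat.Agent.S59.TW.Aut.H511.idem
    Fermat.Agent.S38.H916.iaFree_h916 iaChain299

example : Fermat.Agent.S38.IA.Hecke.IACtrlStatement := iaCtrl299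

end Fermat.Agent.S38.H299
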